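import Fermat.Agent.GAL.DESC.Main
import Fermat.Agent.GAL.AN.PsiC

/-!
# GAL / DESC : the descent theorem over `ℂ` (contract of the block AN).
-/

set_option autoImplicit false

open ModularCurve AlgebraicCurve

noncomputable section

namespace Fermat.Agent.GAL.AN

/-- **(DESC)** every everywhere unramified Kummer element of `ℂ((q))` is, up to a factor in
`FL ℂ M`, defined over `ℚ̄`. -/
theorem desc (M n : ℕ) [NeZero M] [NeZero n] (U : LaurentSeries ℂ) (hU : IsKum ℂ M n U) :
    ∃ g ∈ FL ℂ M, g ≠ 0 ∧ ∃ h : LaurentSeries Qb, iotaS h = g * U :=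
  DESC.desc_core S24.iota M (Nat.pos_of_ne_zero (NeZero.ne n)) hU

end Fermat.Agent.GAL.AN
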