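import Fermat.Agent.S24.FF.Basic

/-!
# GAL / DESC-5a : local estimates, `∇`-stability and scaling for the sets `S_N`
(abstract function field version)
-/

set_option autoImplicit false

open AlgebraicCurve Fermat.Agent.S24.FF

namespace Fermat.Agent.GAL.DESC

variable {K F : Type*} [Field K] [Field F] [Algebra K F]

/-- `δ` preserves all local rings. -/
def PlaceStable (K : Type*) {F : Type*} [Field K] [Field F] [Algebra K F]
    (δ : Derivation ℤ F F) : Prop :=
  ∀ P : Place K F, ∀ x ∈ P.toValuationSubring, δ x ∈ P.toValuationSubring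

/-- `c ∈ S_N` : `cⁿ f` is regular off the poles of `J`, `cⁿ f J^{-nN}` is regular at the poles. -/
def InS (K : Type*) {F : Type*} [Field K] [Field F] [Algebra K F] (J f : F) (n N : ℕ) (c : F) :
    Prop :=
  c ≠ 0 ∧ ∀ P : Place K F, (0 ≤ P.ord J → 0 ≤ P.ord (c ^ n * f)) ∧
    (P.ord J < 0 → 0 ≤ P.ord (c ^ n * f * (J⁻¹) ^ (n * N)))

/-- (5a) local estimate. -/
theorem ord_deriv_ge (δ : Derivation ℤ F F) (P : Place K F)
    (hδ : ∀ x ∈ P.toValuationSubring, δ x ∈ P.toValuationSubring) {g : F} (hg : 0 < P.ord g)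
    (hδg : δ g ≠ 0) : P.ord g - 1 ≤ P.ord (δ g) := by
  obtain ⟨π, hπ⟩ := exists_ord_eq_one P
  have hπ0 : π ≠ 0 := ne_zero_of_ord_ne_zero P (by omega)
  have hg0 : g ≠ 0 := ne_zero_of_ord_ne_zero P (by omega)
  obtain ⟨m, hm⟩ := Int.eq_ofNat_of_zero_le hg.le
  have hm1 : 1 ≤ m := by omega
  set u := g / π ^ m with hu
  have hordu : P.ord u = 0 := by
    rw [hu, div_eq_mul_inv, P.ord_mul hg0 (inv_ne_zero (pow_ne_zero _ hπ0)), P.ord_inv, ord_pow,
      hπ, hm]
    ring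
  have huO : u ∈ P.toValuationSubring := mem_toValuationSubring_of_ord_nonneg P hordu.ge
  have hπO : π ∈ P.toValuationSubring := mem_toValuationSubring_of_ord_nonneg P (by omega)
  have hgu : g = π ^ m * u := by
    rw [hu]
    field_simp
  set w := (m : F) * δ π * u + π * δ u with hw
  have hwO : w ∈ P.toValuationSubring :=
    add_mem (mul_mem (mul_mem (natCast_mem _ m) (hδ π hπO)) huO) (mul_mem hπO (hδ u huO))
  have hδgw : δ g = π ^ (m - 1) * w := by
    rw [hgu, Derivation.leibniz, Derivation.leibniz_pow, hw]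
    obtain ⟨k, rfl⟩ : ∃ k, m = k + 1 := ⟨m - 1, by omega⟩
    simp only [smul_eq_mul, nsmul_eq_mul, Nat.add_sub_cancel]
    ring
  have hw0 : w ≠ 0 := by
    intro h
    apply hδg
    rw [hδgw, h, mul_zero]
  have h1 := ord_nonneg_of_mem P hwO
  rw [hδgw, P.ord_mul (pow_ne_zero _ hπ0) hw0, ord_pow, hπ, hm, Nat.cast_sub hm1]
  push_cast
  omega

/-- (5a) local estimate: `(δ g)ⁿ / gⁿ⁻¹` is regular if `g` is regular and `n ∣ ord g`. -/
theorem ord_deriv_pow_ge (δ : Derivation ℤ F F) (P : Place K F)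
    (hδ : ∀ x ∈ P.toValuationSubring, δ x ∈ P.toValuationSubring) {g : F} {n : ℕ} (hn : 0 < n)
    (hg0 : g ≠ 0) (hg : 0 ≤ P.ord g) (hdvd : (n : ℤ) ∣ P.ord g) (hδg : δ g ≠ 0) :
    ((n : ℤ) - 1) * P.ord g ≤ n * P.ord (δ g) := by
  obtain ⟨k, hk⟩ := hdvd
  have hn' : (0 : ℤ) < n := by exact_mod_cast hn
  rcases hg.eq_or_lt with h0 | hpos
  · rw [← h0, mul_zero]
    exact mul_nonneg hn'.le
      (ord_nonneg_of_mem P (hδ g (mem_toValuationSubring_of_ord_nonneg P hg)))
  · have h1 := ord_deriv_ge δ P hδ hpos hδg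
    have hk1 : 1 ≤ k := by
      by_contra hcon
      have : k ≤ 0 := by omega
      nlinarith
    rw [hk] at h1 ⊢
    nlinarith

/-- the key identity and estimate behind `InS.nabla`, with a `δ`-constant multiplier `e`. -/
theorem ord_nabla_ge [CharZero K] {f c e : F} {n : ℕ} (hn : 0 < n) (hf : f ≠ 0) (hc : c ≠ 0)
    (he : e ≠ 0) (δ : Derivation ℤ F F) (P : Place K F)
    (hδ : ∀ x ∈ P.toValuationSubring, δ x ∈ P.toValuationSubring) (hδe : δ e = 0)
    (hdf : (n : ℤ) ∣ P.ord f) (hde : (n : ℤ) ∣ P.ord e)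
    (h0 : δ c + c * δ f / (n * f) ≠ 0) (hreg : 0 ≤ P.ord (c ^ n * f * e)) :
    0 ≤ P.ord ((δ c + c * δ f / (n * f)) ^ n * f * e) := by
  have hnF : (n : F) ≠ 0 := by
    have : (n : F) = algebraMap K F (n : K) := by simp
    rw [this]
    exact (map_ne_zero _).mpr (by exact_mod_cast hn.ne')
  have hordn : P.ord (n : F) = 0 := by
    have : (n : F) = algebraMap K F (n : K) := by simp
    rw [this]
    exact ord_algebraMap P _
  set D := δ c + c * δ f / (n * f) with hD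
  set g := c ^ n * f * e with hg
  have hg0 : g ≠ 0 := mul_ne_zero (mul_ne_zero (pow_ne_zero _ hc) hf) he
  have hδg : δ g * c = n * g * D := by
    rw [hg, Derivation.leibniz, Derivation.leibniz, Derivation.leibniz_pow, hδe, hD]
    obtain ⟨k, rfl⟩ : ∃ k, n = k + 1 := ⟨n - 1, by omega⟩
    simp only [smul_eq_mul, nsmul_eq_mul, Nat.add_sub_cancel]
    field_simp
    ring
  have hδg0 : δ g ≠ 0 := by
    intro h
    rw [h, zero_mul] at hδg
    exact mul_ne_zero (mul_ne_zero hnF hg0) h0 hδg.symm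
  have hdg : (n : ℤ) ∣ P.ord g := by
    rw [hg, P.ord_mul (mul_ne_zero (pow_ne_zero _ hc) hf) he, P.ord_mul (pow_ne_zero _ hc) hf,
      ord_pow]
    exact dvd_add (dvd_add (dvd_mul_right _ _) hdf) hde
  have hmain := ord_deriv_pow_ge δ P hδ hn hg0 hreg hdg hδg0
  -- orders
  have h1 : P.ord (δ g) + P.ord c = P.ord g + P.ord D := by
    have := congrArg P.ord hδg
    rw [P.ord_mul hδg0 hc, P.ord_mul (mul_ne_zero hnF hg0) h0, P.ord_mul hnF hg0, hordn] at this
    omega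
  have h2 : P.ord g = n * P.ord c + P.ord f + P.ord e := by
    rw [hg, P.ord_mul (mul_ne_zero (pow_ne_zero _ hc) hf) he, P.ord_mul (pow_ne_zero _ hc) hf,
      ord_pow]
  rw [P.ord_mul (mul_ne_zero (pow_ne_zero _ h0) hf) he, P.ord_mul (pow_ne_zero _ h0) hf, ord_pow]
  have h3 : P.ord D = P.ord (δ g) + P.ord c - P.ord g := by omega
  rw [h3]
  nlinarith

/-- (5b) `S_N` is stable under `∇ c = δ c + c δ f / (n f)`. -/
theorem InS.nabla [CharZero K] {J f : F} {n N : ℕ} {c : F} (hc : InS K J f n N c) (hn : 0 < n)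
    (hf : f ≠ 0) (hdiv : ∀ P : Place K F, (n : ℤ) ∣ P.ord f) (δ : Derivation ℤ F F)
    (hδ : PlaceStable K δ) (hJ : δ J = 0) (h0 : δ c + c * δ f / (n * f) ≠ 0) :
    InS K J f n N (δ c + c * δ f / (n * f)) := by
  refine ⟨h0, fun P => ⟨fun hP => ?_, fun hP => ?_⟩⟩
  · have := ord_nabla_ge (e := 1) hn hf hc.1 one_ne_zero δ P (hδ P) (by simp) (hdiv P) (by simp) h0
      (by simpa using (hc.2 P).1 hP)
    simpa using this
  · have hJ0 : J ≠ 0 := ne_zero_of_ord_ne_zero P (by omega)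
    refine ord_nabla_ge hn hf hc.1 (pow_ne_zero _ (inv_ne_zero hJ0)) δ P (hδ P) ?_ (hdiv P) ?_ h0
      ((hc.2 P).2 hP)
    · rw [Derivation.leibniz_pow, Derivation.leibniz_inv, hJ]
      simp
    · rw [ord_pow]
      push_cast
      exact Dvd.intro _ (mul_assoc _ _ _).symm

/-- (5c) scaling. -/
theorem InS.smul {J f : F} {n N : ℕ} {c : F} (hc : InS K J f n N c) (hf : f ≠ 0) {a : K}
    (ha : a ≠ 0) : InS K J f n N (algebraMap K F a * c) := by
  have ha' : algebraMap K F a ≠ 0 := (map_ne_zero _).mpr ha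
  refine ⟨mul_ne_zero ha' hc.1, fun P => ⟨fun hP => ?_, fun hP => ?_⟩⟩
  · have h1 := (hc.2 P).1 hP
    rw [mul_pow, mul_assoc, P.ord_mul (pow_ne_zero _ ha') (mul_ne_zero (pow_ne_zero _ hc.1) hf),
      ord_pow, ord_algebraMap]
    simpa using h1
  · have hJ0 : J ≠ 0 := ne_zero_of_ord_ne_zero P (by omega)
    have h1 := (hc.2 P).2 hP
    rw [mul_pow, mul_assoc, mul_assoc, P.ord_mul (pow_ne_zero _ ha')
      (mul_ne_zero (pow_ne_zero _ hc.1) (mul_ne_zero hf (pow_ne_zero _ (inv_ne_zero hJ0)))),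
      ord_pow, ord_algebraMap, ← mul_assoc]
    simpa using h1

end Fermat.Agent.GAL.DESC
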