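import Fermat.Agent.S24.FF.RiemannHurwitz
import Fermat.Agent.GAL.DESC.CanonLocal

/-!
# GAL / DESC-5 : the canonical representative of an everywhere unramified Kummer class
(abstract function field version)
-/

set_option autoImplicit false

open AlgebraicCurve Fermat.Agent.S24.FF IntermediateField
open scoped IntermediateField.algebraAdjoinAdjoin

namespace Fermat.Agent.GAL.DESC

variable {K F : Type*} [Field K] [Field F] [Algebra K F]

/-- (5d) `S_N` is nonempty for large `N`. -/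
theorem exists_InS [IsAlgClosed K] [CharZero K] [IsFF1 K F] {J f : F} (hJ : Transcendental K J)
    (hf : f ≠ 0) {n : ℕ} (hn : 0 < n) : ∃ N c, InS K J f n N c := by
  classical
  have hfd := finiteDimensional_adjoin_of_transcendental hJ
  have halg : IsAlgebraic (Apoly K J) f := by
    rw [IsFractionRing.isAlgebraic_iff (Apoly K J) K⟮J⟯ F]
    exact Algebra.IsAlgebraic.isAlgebraic f
  obtain ⟨b, hb0, hb⟩ := halg.exists_integral_multiple
  have hbF : (b : F) ≠ 0 := fun h => hb0 (Subtype.ext h)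
  have hbint : IsIntegral (Apoly K J) (b : F) := isIntegral_algebraMap (x := b)
  have hb' : IsIntegral (Apoly K J) ((b : F) * f) := hb
  set g : F := (b : F) ^ n * f with hg
  have hg0 : g ≠ 0 := mul_ne_zero (pow_ne_zero _ hbF) hf
  have hgint : IsIntegral (Apoly K J) g := by
    obtain ⟨m, rfl⟩ : ∃ m, n = m + 1 := ⟨n - 1, by omega⟩
    rw [hg, pow_succ, mul_assoc]
    exact (hbint.pow m).mul hb'
  set N : ℕ := ∑ P ∈ polesFinset hJ, (P.ord g).natAbs with hN
  refine ⟨N, (b : F), hbF, fun P => ⟨fun hP => ?_, fun hP => ?_⟩⟩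
  · have hJmem : J ∈ P.toValuationSubring := mem_toValuationSubring_of_ord_nonneg P hP
    exact ord_nonneg_of_mem P (Bint_le P.toValuationSubring P.algebraMap_mem' hJmem ⟨g, hgint⟩)
  · have hJ0 : J ≠ 0 := fun h => hJ (h ▸ isAlgebraic_zero)
    rw [Place.ord_mul P hg0 (pow_ne_zero _ (inv_ne_zero hJ0)), ord_pow, Place.ord_inv]
    have h1 : (P.ord g).natAbs ≤ N :=
      Finset.single_le_sum (f := fun P : Place K F => (P.ord g).natAbs) (fun _ _ => Nat.zero_le _)
        ((mem_polesFinset hJ P).mpr hP)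
    have h2 : (N : ℤ) ≤ ((n * N : ℕ) : ℤ) * -P.ord J := by
      have h3 : (1 : ℤ) ≤ -P.ord J := by omega
      have h4 : (1 : ℤ) ≤ n := by exact_mod_cast hn
      have h5 : (0 : ℤ) ≤ N := Int.natCast_nonneg N
      push_cast
      nlinarith [mul_nonneg h5 (sub_nonneg.mpr h4), mul_nonneg (mul_nonneg (by omega : (0:ℤ) ≤ n) h5)
        (sub_nonneg.mpr h3)]
    have h6 : -(P.ord g) ≤ ((P.ord g).natAbs : ℤ) := by
      rw [Int.natCast_natAbs]; exact neg_le_abs _
    have h7 : ((P.ord g).natAbs : ℤ) ≤ N := by exact_mod_cast h1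
    omega

/-- auxiliary: the order of `g` at `P₀` is bounded if the poles of `g` are bounded by those of
`J`. -/
theorem Canon_ord_le_of_poles [IsAlgClosed K] [CharZero K] [IsFF1 K F] {J g : F}
    (hJ : Transcendental K J) (m : ℕ)
    (h1 : ∀ P : Place K F, 0 ≤ P.ord J → 0 ≤ P.ord g)
    (h2 : ∀ P : Place K F, P.ord J < 0 → (m : ℤ) * P.ord J ≤ P.ord g) (P₀ : Place K F) :
    P₀.ord g ≤ m * Module.finrank K⟮J⟯ F := by
  classical
  by_cases hc : g ∈ Set.range (algebraMap K F)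
  · rw [ord_eq_zero_of_mem_range P₀ hc]
    positivity
  have ht : Transcendental K g := transcendental_of_not_mem_range hc
  by_cases hpos : 0 < P₀.ord g
  swap
  · have : (0 : ℤ) ≤ m * Module.finrank K⟮J⟯ F := by positivity
    omega
  have hz : P₀.ord g ≤ ∑ v ∈ (finite_zeros ht).toFinset, v.ord g :=
    Finset.single_le_sum (f := fun v : Place K F => v.ord g)
      (fun v hv => le_of_lt ((mem_zeros ht v).mp hv)) ((mem_zeros ht P₀).mpr hpos)
  rw [sum_ord_zeros ht] at hz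
  have hp := sum_ord_poles ht
  have hpJ := sum_ord_poles hJ
  have hsub : polesFinset ht ⊆ polesFinset hJ := by
    intro v hv
    rw [mem_polesFinset] at hv ⊢
    by_contra hcon
    have := h1 v (by omega)
    omega
  have h3 : ∑ v ∈ polesFinset ht, -(v.ord g) ≤ ∑ v ∈ polesFinset ht, (m : ℤ) * -(v.ord J) := by
    refine Finset.sum_le_sum fun v hv => ?_
    have := h2 v ((mem_polesFinset hJ v).mp (hsub hv))
    linarith
  have h4 : ∑ v ∈ polesFinset ht, (m : ℤ) * -(v.ord J) ≤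
      ∑ v ∈ polesFinset hJ, (m : ℤ) * -(v.ord J) := by
    refine Finset.sum_le_sum_of_subset_of_nonneg hsub fun v hv _ => ?_
    have := (mem_polesFinset hJ v).mp hv
    have h5 : (0 : ℤ) ≤ -(v.ord J) := by omega
    positivity
  have h5 : ∑ v ∈ polesFinset hJ, (m : ℤ) * -(v.ord J) = m * Module.finrank K⟮J⟯ F := by
    rw [← Finset.mul_sum, Finset.sum_neg_distrib, hpJ, neg_neg]
  rw [Finset.sum_neg_distrib, hp] at h3
  linarith

/-- (5e) orders at a fixed place are bounded on `S_N`. -/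
theorem InS.ord_le [IsAlgClosed K] [CharZero K] [IsFF1 K F] {J f : F} (hJ : Transcendental K J)
    (hf : f ≠ 0) {n : ℕ} (hn : 0 < n) (N : ℕ) (P₀ : Place K F) :
    ∃ B : ℤ, ∀ c, InS K J f n N c → P₀.ord c ≤ B := by
  refine ⟨((n * N : ℕ) : ℤ) * Module.finrank K⟮J⟯ F + |P₀.ord f|, fun c hc => ?_⟩
  obtain ⟨hc0, hc⟩ := hc
  have hJ0 : J ≠ 0 := fun h => hJ (h ▸ isAlgebraic_zero)
  have hg0 : c ^ n * f ≠ 0 := mul_ne_zero (pow_ne_zero _ hc0) hf
  have key := Canon_ord_le_of_poles (g := c ^ n * f) hJ (n * N) (fun P hP => (hc P).1 hP)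
    (fun P hP => by
      have := (hc P).2 hP
      rw [Place.ord_mul P hg0 (pow_ne_zero _ (inv_ne_zero hJ0)), ord_pow, Place.ord_inv] at this
      linarith) P₀
  rw [Place.ord_mul P₀ (pow_ne_zero _ hc0) hf, ord_pow] at key
  have h1 : -(P₀.ord f) ≤ |P₀.ord f| := neg_le_abs _
  have h2 : (0 : ℤ) ≤ |P₀.ord f| := abs_nonneg _
  have h3 : (0 : ℤ) ≤ ((n * N : ℕ) : ℤ) * Module.finrank K⟮J⟯ F := by positivity
  by_cases hpos : 0 ≤ P₀.ord c
  · have h4 : (1 : ℤ) ≤ n := by exact_mod_cast hn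
    have h5 : P₀.ord c ≤ n * P₀.ord c := by nlinarith
    linarith
  · omega

/-- **(DESC-5)** the canonical representative. -/
theorem exists_canonical [IsAlgClosed K] [CharZero K] [IsFF1 K F] (P₀ : Place K F) {J f : F}
    (hJ : Transcendental K J) (hf : f ≠ 0) {n : ℕ} (hn : 0 < n)
    (hdiv : ∀ P : Place K F, (n : ℤ) ∣ P.ord f) :
    ∃ c : F, c ≠ 0 ∧ ∀ a : K, a ≠ 0 → ∀ δ : Derivation ℤ F F, PlaceStable K δ → δ J = 0 →
      δ (algebraMap K F a * c) + (algebraMap K F a * c) * δ f / (n * f) = 0 ∨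
      P₀.ord (δ (algebraMap K F a * c) + (algebraMap K F a * c) * δ f / (n * f)) ≤ P₀.ord c := by
  classical
  obtain ⟨N, c₀, hc₀⟩ := exists_InS (K := K) hJ hf hn
  obtain ⟨B, hB⟩ := InS.ord_le (K := K) hJ hf hn N P₀
  obtain ⟨ub, ⟨c, hc, hcub⟩, hmax⟩ := Int.exists_greatest_of_bdd
    (P := fun z : ℤ => ∃ c, InS K J f n N c ∧ P₀.ord c = z)
    ⟨B, by rintro z ⟨c, hc, rfl⟩; exact hB c hc⟩ ⟨_, c₀, hc₀, rfl⟩
  refine ⟨c, hc.1, fun a ha δ hδ hδJ => ?_⟩
  by_cases h0 : δ (algebraMap K F a * c) + (algebraMap K F a * c) * δ f / (n * f) = 0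
  · exact Or.inl h0
  · right
    have h1 := (hc.smul hf ha).nabla hn hf hdiv δ hδ hδJ h0
    rw [hcub]
    exact hmax _ ⟨_, h1, rfl⟩

end Fermat.Agent.GAL.DESC
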