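import Mathlib
import Fermat.Prelude.Def_ModularCurve_LaurentCoeff

/-!
# GAL / DESC-2 : the coefficientwise derivation of `Ω((q))`
-/

set_option autoImplicit false

open ModularCurve

noncomputable section

namespace Fermat.Agent.GAL.DESC

variable {Ω : Type*} [Field Ω]

theorem dS_support_subset (D : Derivation ℤ Ω Ω) (x : LaurentSeries Ω) :
    (x.map D).support ⊆ x.support := by
  intro i hi
  simp only [HahnSeries.mem_support, HahnSeries.map_coeff] at hi ⊢
  intro h
  apply hi
  rw [h, map_zero]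

/-- The coefficientwise derivation `∑ aₖ qᵏ ↦ ∑ D(aₖ) qᵏ`. -/
def dS (D : Derivation ℤ Ω Ω) : Derivation ℤ (LaurentSeries Ω) (LaurentSeries Ω) where
  toFun := fun x => x.map D
  map_add' := by
    intro x y
    ext k
    simp
  map_smul' := by
    intro n x
    have hadd : ∀ a b : LaurentSeries Ω, (a + b).map D = a.map D + b.map D := by
      intro a b
      ext k
      simp
    rw [Algebra.smul_def, eq_intCast, ← zsmul_eq_mul]
    exact map_zsmul
      (AddMonoidHom.mk' (fun x : LaurentSeries Ω => (x.map D : LaurentSeries Ω)) hadd) n x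
  map_one_eq_zero' := by
    ext k
    simp [HahnSeries.coeff_one, apply_ite D]
  leibniz' := by
    intro x y
    ext k
    simp only [LinearMap.coe_mk, AddHom.coe_mk, smul_eq_mul, HahnSeries.coeff_add,
      HahnSeries.map_coeff]
    rw [HahnSeries.coeff_mul, HahnSeries.coeff_mul_right' y.isPWO_support (dS_support_subset D y),
      mul_comm y, HahnSeries.coeff_mul_left' x.isPWO_support (dS_support_subset D x), map_sum,
      ← Finset.sum_add_distrib]
    refine Finset.sum_congr rfl fun ij _ => ?_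
    simp only [HahnSeries.map_coeff, Derivation.leibniz, smul_eq_mul]
    ring

@[simp]
theorem dS_coeff (D : Derivation ℤ Ω Ω) (x : LaurentSeries Ω) (k : ℤ) :
    (dS D x).coeff k = D (x.coeff k) := rfl

theorem dS_algebraMap (D : Derivation ℤ Ω Ω) (a : Ω) :
    dS D (algebraMap Ω (LaurentSeries Ω) a) = algebraMap Ω (LaurentSeries Ω) (D a) := by
  rw [algebraMap_laurentSeries_eq_single, algebraMap_laurentSeries_eq_single]
  ext k
  rw [dS_coeff]
  rcases eq_or_ne k 0 with rfl | hk
  · simp [HahnSeries.coeff_single_same]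
  · simp [HahnSeries.coeff_single_of_ne hk]

theorem dS_coeffMap {k : Type*} [CommRing k] (D : Derivation ℤ Ω Ω) (ι : k →+* Ω)
    (h : ∀ a, D (ι a) = 0) (x : LaurentSeries k) : dS D (coeffMap ι x) = 0 := by
  ext n
  simp [h]

theorem dS_map_rat [Algebra ℚ Ω] (D : Derivation ℤ Ω Ω) (r : ℚ) : D (algebraMap ℚ Ω r) = 0 := by
  have hint : ∀ n : ℤ, D (n : Ω) = 0 := fun n => by
    simp
  have h1 : algebraMap ℚ Ω r = (r.num : Ω) * ((r.den : ℤ) : Ω)⁻¹ := by
    rw [eq_ratCast, Rat.cast_def, div_eq_mul_inv, Int.cast_natCast]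
  rw [h1, D.leibniz, Derivation.leibniz_inv, hint, hint]
  simp

theorem dS_coeffEmb [Algebra ℚ Ω] (D : Derivation ℤ Ω Ω) (x : LaurentSeries ℚ) :
    dS D (coeffEmb Ω x) = 0 :=
  dS_coeffMap D _ (dS_map_rat D) x

theorem dS_eq_zero_iff (D : Derivation ℤ Ω Ω) (x : LaurentSeries Ω) :
    dS D x = 0 ↔ ∀ k, D (x.coeff k) = 0 := by
  constructor
  · intro h k
    rw [← dS_coeff, h]
    rfl
  · intro h
    ext k
    simp [h]

theorem dS_mem_laurentBaseChange [Algebra ℚ Ω] (D : Derivation ℤ Ω Ω)
    (F₀ : IntermediateField ℚ (LaurentSeries ℚ)) {x : LaurentSeries Ω}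
    (hx : x ∈ laurentBaseChange Ω F₀) : dS D x ∈ laurentBaseChange Ω F₀ := by
  have hx0 := hx
  rw [mem_laurentBaseChange_iff] at hx
  have key : x ∈ laurentBaseChange Ω F₀ ∧ dS D x ∈ laurentBaseChange Ω F₀ := by
    clear hx0
    induction hx using Subfield.closure_induction with
    | mem y hy =>
        rcases hy with ⟨a, rfl⟩ | ⟨z, hz, rfl⟩
        · rw [dS_algebraMap]
          exact ⟨(laurentBaseChange Ω F₀).algebraMap_mem _, (laurentBaseChange Ω F₀).algebraMap_mem _⟩
        · rw [dS_coeffEmb]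
          exact ⟨coeffEmb_mem_laurentBaseChange Ω hz, zero_mem _⟩
    | one => exact ⟨one_mem _, by simp⟩
    | add x y _ _ hx hy => exact ⟨add_mem hx.1 hy.1, by simpa using add_mem hx.2 hy.2⟩
    | neg x _ hx => exact ⟨neg_mem hx.1, by simpa using neg_mem hx.2⟩
    | inv x _ hx =>
        refine ⟨inv_mem hx.1, ?_⟩
        rw [Derivation.leibniz_inv]
        exact mul_mem (neg_mem (pow_mem (inv_mem hx.1) 2)) hx.2
    | mul x y _ _ hx hy =>
        refine ⟨mul_mem hx.1 hy.1, ?_⟩
        rw [Derivation.leibniz]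
        exact add_mem (mul_mem hx.1 hy.2) (mul_mem hy.1 hx.2)
  exact key.2

/-- `dS D` restricted to the subfield `laurentBaseChange Ω F₀`. -/
def dF [Algebra ℚ Ω] (D : Derivation ℤ Ω Ω) (F₀ : IntermediateField ℚ (LaurentSeries ℚ)) :
    Derivation ℤ ↥(laurentBaseChange Ω F₀) ↥(laurentBaseChange Ω F₀) :=
  Derivation.mk'
    { toFun := fun x => ⟨dS D (x : LaurentSeries Ω), dS_mem_laurentBaseChange D F₀ x.2⟩
      map_add' := by
        intro x y
        apply Subtype.ext
        simp
      map_smul' := by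
        intro n x
        apply Subtype.ext
        simp }
    (by
      intro x y
      apply Subtype.ext
      simp)

@[simp]
theorem coe_dF [Algebra ℚ Ω] (D : Derivation ℤ Ω Ω) (F₀ : IntermediateField ℚ (LaurentSeries ℚ))
    (x : ↥(laurentBaseChange Ω F₀)) :
    ((dF D F₀ x : ↥(laurentBaseChange Ω F₀)) : LaurentSeries Ω) = dS D (x : LaurentSeries Ω) := rfl

/-- if the leading coefficient is killed by `D`, the order goes up. -/
theorem order_lt_order_dS (D : Derivation ℤ Ω Ω) {x : LaurentSeries Ω}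
    (hx : D (x.coeff x.order) = 0) (h : dS D x ≠ 0) : x.order < (dS D x).order := by
  by_contra hlt
  rw [not_lt] at hlt
  have h1 : (dS D x).coeff (dS D x).order ≠ 0 := fun h0 => h (HahnSeries.coeff_order_eq_zero.1 h0)
  rw [dS_coeff] at h1
  rcases hlt.lt_or_eq with h2 | h2
  · rw [HahnSeries.coeff_eq_zero_of_lt_order h2, map_zero] at h1
    exact h1 rfl
  · rw [h2] at h1
    exact h1 hx

end Fermat.Agent.GAL.DESC
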