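import Mathlib

/-!
# GAL / DESC-1 : derivations of a field of characteristic zero detect transcendental elements
-/

set_option autoImplicit false

namespace Fermat.Agent.GAL.DESC

open Polynomial in
/-- A `ℤ`-derivation of a field kills every element which is algebraic over `ℚ`. -/
theorem derivation_eq_zero_of_isAlgebraic {Ω : Type*} [Field Ω] [CharZero Ω]
    (D : Derivation ℤ Ω Ω) {z : Ω} (hz : IsAlgebraic ℤ z) : D z = 0 := by
  have key : ∀ n : ℕ, ∀ p : ℤ[X], p ≠ 0 → p.natDegree = n → aeval z p = 0 → D z = 0 := by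
    intro n
    induction n using Nat.strong_induction_on with
    | _ n ih =>
      intro p hp hn h0
      by_contra hD
      have h1 := D.map_aeval p z
      rw [h0, map_zero] at h1
      have h2 : aeval z (derivative p) = 0 := (smul_eq_zero.mp h1.symm).resolve_right hD
      by_cases hp' : derivative p = 0
      · have h3 : p.natDegree = 0 := Polynomial.derivative_eq_zero.mp hp'
        rw [eq_C_of_natDegree_eq_zero h3, aeval_C] at h0
        have h4 : p.coeff 0 = 0 := by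
          have : ((p.coeff 0 : ℤ) : Ω) = 0 := by simpa using h0
          exact_mod_cast this
        apply hp
        rw [eq_C_of_natDegree_eq_zero h3, h4, C_0]
      · have h3 : p.natDegree ≠ 0 := by
          intro h3
          apply hp'
          rw [eq_C_of_natDegree_eq_zero h3, derivative_C]
        exact hD (ih _ (hn ▸ natDegree_derivative_lt h3) _ hp' rfl h2)
  obtain ⟨p, hp, h0⟩ := hz
  exact key _ p hp rfl h0

open Polynomial TensorProduct IntermediateField KaehlerDifferential in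
/-- `dz ≠ 0` in `Ω[Ω/ℚ]` for `z` transcendental. -/
theorem kaehler_D_ne_zero_of_transcendental {Ω : Type*} [Field Ω] [CharZero Ω] {z : Ω}
    (hz : Transcendental ℚ z) : KaehlerDifferential.D ℚ Ω z ≠ 0 := by
  classical
  -- algebra structures over `ℚ[X]`
  let tt : ℚ⟮z⟯ := ⟨z, mem_adjoin_simple_self ℚ z⟩
  let algL : Algebra ℚ[X] ℚ⟮z⟯ := (aeval tt).toRingHom.toAlgebra
  let algF : Algebra ℚ[X] Ω := (aeval z).toRingHom.toAlgebra
  have hL : ∀ p : ℚ[X], algebraMap ℚ[X] ℚ⟮z⟯ p = aeval tt p := fun _ => rfl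
  have hF : ∀ p : ℚ[X], algebraMap ℚ[X] Ω p = aeval z p := fun _ => rfl
  have hcoe : ∀ p : ℚ[X], ((aeval tt p : ℚ⟮z⟯) : Ω) = aeval z p := by
    intro p
    have := (aeval_algebraMap_apply Ω tt p)
    simpa [tt] using this.symm
  have tow1 : IsScalarTower ℚ ℚ[X] Ω := IsScalarTower.of_algebraMap_eq fun r => by
    rw [hF, ← Polynomial.C_eq_algebraMap, aeval_C]
  have tow2 : IsScalarTower ℚ[X] ℚ⟮z⟯ Ω := IsScalarTower.of_algebraMap_eq fun p => by
    rw [hF, hL]; exact (hcoe p).symm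
  have tow3 : IsScalarTower ℚ ℚ[X] ℚ⟮z⟯ := IsScalarTower.of_algebraMap_eq fun r => by
    rw [hL, ← Polynomial.C_eq_algebraMap, aeval_C]
  have hinj : Function.Injective (algebraMap ℚ[X] ℚ⟮z⟯) := by
    intro p q hpq
    have h1 : aeval z p = aeval z q := by
      rw [← hcoe, ← hcoe, ← hL, ← hL, hpq]
    exact (transcendental_iff_injective.mp hz) h1
  have : FaithfulSMul ℚ[X] ℚ⟮z⟯ := (faithfulSMul_iff_algebraMap_injective _ _).mpr hinj
  have : IsFractionRing ℚ[X] ℚ⟮z⟯ := IsFractionRing.of_field ℚ[X] ℚ⟮z⟯ (by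
    rintro ⟨w, hw⟩
    obtain ⟨r, s, h⟩ := (mem_adjoin_simple_iff ℚ w).mp hw
    refine ⟨r, s, Subtype.ext ?_⟩
    simp only [hL]
    push_cast
    rw [hcoe, hcoe, h])
  have : Algebra.FormallySmooth ℚ[X] ℚ⟮z⟯ :=
    Algebra.FormallySmooth.of_isLocalization (nonZeroDivisors ℚ[X])
  -- `Ω` is formally smooth over `ℚ(z)`
  obtain ⟨s, hs⟩ := exists_isTranscendenceBasis ℚ⟮z⟯ Ω
  have : Algebra.IsAlgebraic (IntermediateField.adjoin ℚ⟮z⟯ (Set.range ((↑) : s → Ω))) Ω :=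
    hs.isAlgebraic_field
  have : Algebra.FormallySmooth ℚ⟮z⟯ Ω :=
    Algebra.FormallySmooth.of_algebraicIndependent_of_isSeparable hs.1
  have : Algebra.FormallySmooth ℚ[X] Ω := Algebra.FormallySmooth.comp ℚ[X] ℚ⟮z⟯ Ω
  -- injectivity of `Ω ⊗ Ω[ℚ[X]/ℚ] → Ω[Ω/ℚ]`
  have hinj2 : Function.Injective (KaehlerDifferential.mapBaseChange ℚ ℚ[X] Ω) := by
    rw [injective_iff_map_eq_zero]
    intro x hx
    obtain ⟨y, rfl⟩ := (Algebra.H1Cotangent.exact_δ_mapBaseChange ℚ ℚ[X] Ω x).mp hx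
    rw [Subsingleton.elim y 0, map_zero]
  let e2 : Ω ⊗[ℚ[X]] Ω[ℚ[X]⁄ℚ] ≃ₗ[Ω] Ω ⊗[ℚ[X]] ℚ[X] :=
    TensorProduct.AlgebraTensorModule.congr (LinearEquiv.refl Ω Ω) (polynomialEquiv ℚ)
  let e3 : Ω ⊗[ℚ[X]] ℚ[X] ≃ₗ[Ω] Ω := TensorProduct.AlgebraTensorModule.rid ℚ[X] Ω Ω
  have h1 : (1 : Ω) ⊗ₜ[ℚ[X]] KaehlerDifferential.D ℚ ℚ[X] X ≠ 0 := by
    intro h
    have h2 : e3 (e2 ((1 : Ω) ⊗ₜ[ℚ[X]] KaehlerDifferential.D ℚ ℚ[X] X)) = 1 := by
      simp [e2, e3, polynomialEquiv_D]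
    rw [h, map_zero, map_zero] at h2
    exact zero_ne_one h2
  have h3 : KaehlerDifferential.mapBaseChange ℚ ℚ[X] Ω
      ((1 : Ω) ⊗ₜ[ℚ[X]] KaehlerDifferential.D ℚ ℚ[X] X) = KaehlerDifferential.D ℚ Ω z := by
    rw [KaehlerDifferential.mapBaseChange_tmul, KaehlerDifferential.map_D, one_smul, hF, aeval_X]
  rw [← h3]
  intro h
  exact h1 (hinj2 (by rw [h, map_zero]))

/-- **(DESC-1)** a transcendental element is moved by some derivation. -/
theorem exists_derivation_ne_zero {Ω : Type*} [Field Ω] [CharZero Ω] {z : Ω}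
    (hz : Transcendental ℤ z) : ∃ D : Derivation ℤ Ω Ω, D z ≠ 0 := by
  have hz' : Transcendental ℚ z := by
    intro h
    exact hz ((IsFractionRing.isAlgebraic_iff ℤ ℚ Ω).mpr h)
  have h1 := kaehler_D_ne_zero_of_transcendental hz'
  have h2 : ¬ ∀ φ : Module.Dual Ω (Ω[Ω⁄ℚ]), φ (KaehlerDifferential.D ℚ Ω z) = 0 := by
    rw [Module.forall_dual_apply_eq_zero_iff]
    exact h1
  push Not at h2
  obtain ⟨φ, hφ⟩ := h2
  exact ⟨(φ.compDer (KaehlerDifferential.D ℚ Ω)).restrictScalars ℤ, hφ⟩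

end Fermat.Agent.GAL.DESC
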