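import Fermat.Agent.GAL.DESC.Seidenberg
import Fermat.Agent.S24.FF.Dedekind

/-!
# GAL / DESC-4 : a derivation of a function field `F = K(S)` generated by constants `S`
preserves all local rings `O_P`.
-/

set_option autoImplicit false

open AlgebraicCurve Fermat.Agent.S24.FF

namespace Fermat.Agent.GAL.DESC

variable {K F : Type*} [Field K] [Field F] [Algebra K F]

/-- if `d² yᵏ ∈ O_P` for all `k` (`d ≠ 0`) then `y ∈ O_P`. -/
theorem mem_of_forall_mul_pow_mem (P : Place K F) {d y : F} (hd : d ≠ 0)
    (h : ∀ k : ℕ, d * y ^ k ∈ P.toValuationSubring) : y ∈ P.toValuationSubring := by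
  apply mem_toValuationSubring_of_ord_nonneg
  by_contra hneg
  push Not at hneg
  have hy0 : y ≠ 0 := by
    rintro rfl
    simp at hneg
  obtain ⟨k, hk⟩ : ∃ k : ℕ, P.ord d < k := ⟨(P.ord d).toNat + 1, by push_cast; omega⟩
  have h1 := ord_nonneg_of_mem P (h k)
  rw [P.ord_mul hd (pow_ne_zero _ hy0), ord_pow] at h1
  nlinarith

/-- the derivative of an inverse. -/
theorem deriv_inv_eq_zero (δ : Derivation ℤ F F) {s : F} (hs : δ s = 0) : δ s⁻¹ = 0 := by
  rcases eq_or_ne s 0 with rfl | h0
  · simp
  · have h1 : δ (s * s⁻¹) = 0 := by rw [mul_inv_cancel₀ h0]; exact δ.map_one_eq_zero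
    rw [Derivation.leibniz, hs, smul_zero, add_zero, smul_eq_mul] at h1
    exact (mul_eq_zero.mp h1).resolve_left h0

/-- **(DESC-4)** all local rings are `δ`-stable. -/
theorem placeStable_of_gen [CharZero K] [IsFF1 K F] (δ : Derivation ℤ F F)
    (hK : ∀ a : K, δ (algebraMap K F a) ∈ Set.range (algebraMap K F))
    (S : Set F) (hS : ∀ s ∈ S, δ s = 0) (hgen : IntermediateField.adjoin K S = ⊤)
    (P : Place K F) {x : F} (hx : x ∈ P.toValuationSubring) : δ x ∈ P.toValuationSubring := by
  classical
  have : CharZero F := charZero_of_injective_algebraMap (algebraMap K F).injective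
  set O := P.toValuationSubring with hO
  -- the constants lying in `O`
  let Z : Set F := {z | z ∈ O ∧ δ z = 0}
  let R' : Subalgebra K F := Algebra.adjoin K Z
  let OA : Subalgebra K F := { O.toSubring with algebraMap_mem' := P.algebraMap_mem' }
  have hRO : ∀ r ∈ R', r ∈ O := by
    have : R' ≤ OA := Algebra.adjoin_le fun z hz => hz.1
    exact fun r hr => this hr
  have hδR : ∀ r ∈ R', δ r ∈ R' := by
    intro r hr
    induction hr using Algebra.adjoin_induction with
    | mem z hz => rw [hz.2]; exact zero_mem _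
    | algebraMap a =>
      obtain ⟨b, hb⟩ := hK a
      rw [← hb]; exact R'.algebraMap_mem b
    | add a b _ _ ha hb => rw [map_add]; exact add_mem ha hb
    | mul a b ha' hb' ha hb =>
      rw [Derivation.leibniz]
      exact add_mem (by rw [smul_eq_mul]; exact mul_mem ha' hb)
        (by rw [smul_eq_mul]; exact mul_mem hb' ha)
  -- `F = K(Z)`
  have hZtop : IntermediateField.adjoin K Z = ⊤ := by
    rw [eq_top_iff, ← hgen, IntermediateField.adjoin_le_iff]
    intro s hs
    rcases O.mem_or_inv_mem s with h | h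
    · exact IntermediateField.subset_adjoin K Z ⟨h, hS s hs⟩
    · have : s⁻¹ ∈ IntermediateField.adjoin K Z :=
        IntermediateField.subset_adjoin K Z ⟨h, deriv_inv_eq_zero δ (hS s hs)⟩
      simpa using inv_mem this
  -- fractions
  have hfrac : ∀ y : F, ∃ r ∈ R', r ≠ 0 ∧ r * y ∈ R' := by
    intro y
    have hy : y ∈ IntermediateField.adjoin K Z := by rw [hZtop]; trivial
    rw [IntermediateField.mem_adjoin_iff_div] at hy
    obtain ⟨r, hr, s, hs, rfl⟩ := hy
    rcases eq_or_ne s 0 with rfl | hs0
    · exact ⟨1, one_mem _, one_ne_zero, by simp⟩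
    · exact ⟨s, hs, hs0, by rw [mul_div_cancel₀ _ hs0]; exact hr⟩
  -- a transcendental constant in `O`
  obtain ⟨t, htZ, ht⟩ : ∃ t ∈ Z, Transcendental K t := by
    by_contra hcon
    push Not at hcon
    have halg : Algebra.IsAlgebraic K (IntermediateField.adjoin K Z) :=
      IntermediateField.isAlgebraic_adjoin fun z hz => by
        have := hcon z hz
        rw [Transcendental, not_not] at this
        exact this.isIntegral
    obtain ⟨u, hu, -⟩ := IsFF1.exists_transcendental (K := K) (F := F)
    apply hu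
    have hu' : u ∈ IntermediateField.adjoin K Z := by rw [hZtop]; trivial
    have := halg.isAlgebraic (⟨u, hu'⟩ : IntermediateField.adjoin K Z)
    exact (isAlgebraic_algebraMap_iff
      (algebraMap (IntermediateField.adjoin K Z) F).injective).mpr this
  -- elements of `Bint K t`
  have hB : ∀ a : F, IsIntegral (Apoly K t) a → δ a ∈ O := by
    intro a ha
    have hle : Apoly K t ≤ R' := Algebra.adjoin_mono (Set.singleton_subset_iff.mpr htZ)
    have ha' : IsIntegral R' a := by
      obtain ⟨p, hp, hpa⟩ := ha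
      refine ⟨p.map (Subalgebra.inclusion hle).toRingHom, hp.map _, ?_⟩
      rw [Polynomial.eval₂_map]
      exact hpa
    obtain ⟨r, hr, hr0, hra⟩ := hfrac a
    have halm : IsAlmostIntegral R' a := by
      refine ha'.isAlmostIntegral_of_exists_smul_mem_range ⟨⟨r, hr⟩, ?_, ⟨⟨r * a, hra⟩, rfl⟩⟩
      exact mem_nonZeroDivisors_of_ne_zero (by simpa [Subtype.ext_iff] using hr0)
    obtain ⟨d, hd, hdn⟩ := halm
    have hd0 : (d : F) ≠ 0 := by
      have h1 := nonZeroDivisors.ne_zero hd
      intro h2
      exact h1 (Subtype.ext h2)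
    have hpow := seidenberg_pow_mem δ R'.toSubring
      (fun n _ => by
        have : ((n : F))⁻¹ = algebraMap K F ((n : K))⁻¹ := by simp
        rw [this]; exact R'.algebraMap_mem _)
      hδR a (d : F)
      (fun i => by
        obtain ⟨e, he⟩ := hdn i
        have : (d : F) * a ^ i = (e : F) := he.symm
        rw [this]; exact e.2)
    exact mem_of_forall_mul_pow_mem P (pow_ne_zero 2 hd0) fun k => hRO _ (hpow k)
  -- localisation
  have hfd := finiteDimensional_adjoin_of_transcendental ht
  have hDed := isDedekind_Bint ht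
  have hFr := isFractionRing_Bint (K := K) t
  obtain ⟨Q, hQ⟩ := exists_heightOneSpectrum_of_le (R := Bint K t) O
    (Bint_le O P.algebraMap_mem' htZ.1) P.ne_top'
  have hxQ : Q.valuation F x ≤ 1 := by
    rw [← Valuation.mem_valuationSubring_iff, hQ]; exact hx
  obtain ⟨n, d, hnd⟩ := Q.exists_primeCompl_mul_eq_of_integer x hxQ
  have hd1 : Q.valuation F (algebraMap (Bint K t) F d) = 1 := by
    rw [IsDedekindDomain.HeightOneSpectrum.valuation_of_algebraMap]
    exact (Q.intValuation_eq_one_iff_mem_primeCompl d).mpr d.2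
  have hd0 : algebraMap (Bint K t) F d ≠ 0 := by
    intro h0
    rw [h0, map_zero] at hd1
    exact zero_ne_one hd1
  have hdinv : (algebraMap (Bint K t) F d)⁻¹ ∈ O := by
    rw [← hQ, Valuation.mem_valuationSubring_iff, map_inv₀, hd1, inv_one]
  have hδn : δ (algebraMap (Bint K t) F n) ∈ O := hB _ n.2
  have hδd : δ (algebraMap (Bint K t) F d) ∈ O := hB _ (d : Bint K t).2
  -- `δ x * d + x * δ d = δ n`
  have hleib : δ x * algebraMap (Bint K t) F d + x * δ (algebraMap (Bint K t) F d)
      = δ (algebraMap (Bint K t) F n) := by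
    rw [← hnd, Derivation.leibniz, smul_eq_mul, smul_eq_mul]; ring
  have : δ x = (δ (algebraMap (Bint K t) F n) - x * δ (algebraMap (Bint K t) F d))
      * (algebraMap (Bint K t) F d)⁻¹ := by
    rw [← hleib]; field_simp; ring
  rw [this]
  exact mul_mem (sub_mem hδn (mul_mem hx hδd)) hdinv

end Fermat.Agent.GAL.DESC
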