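import Fermat.Agent.GAL.DESC.PlaceQ
import Fermat.Agent.GAL.DESC.Canon
import Fermat.Agent.GAL.DESC.PlaceStable
import Fermat.Agent.GAL.DESC.CoeffDeriv
import Fermat.Agent.GAL.DESC.Deriv

/-!
# GAL / DESC-9 : descent of Kummer elements from `Ω((q))` to `ℚ̄((q))`.
-/

set_option autoImplicit false

open ModularCurve AlgebraicCurve Fermat.Agent.S24.FF IntermediateField

noncomputable section

namespace Fermat.Agent.GAL.DESC

variable {Ω : Type*} [Field Ω] [Algebra ℚ Ω] [CharZero Ω]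

/-- the coefficientwise derivations preserve all local rings of `laurentBaseChange Ω F₀`. -/
theorem placeStable_dF (F₀ : IntermediateField ℚ (LaurentSeries ℚ))
    [IsFF1 Ω ↥(laurentBaseChange Ω F₀)] (D : Derivation ℤ Ω Ω) :
    PlaceStable Ω (dF D F₀) := by
  intro P x hx
  refine placeStable_of_gen (dF D F₀) ?_
    {y | (y : LaurentSeries Ω) ∈ ⇑(coeffEmb Ω) '' (F₀ : Set (LaurentSeries ℚ))} ?_ ?_ P hx
  · intro a
    refine ⟨D a, ?_⟩
    apply Subtype.ext
    rw [coe_dF]
    exact (dS_algebraMap D a).symm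
  · rintro s ⟨z, -, hzs⟩
    apply Subtype.ext
    rw [coe_dF, ← hzs, dS_coeffEmb]
    rfl
  · apply lift_injective
    rw [lift_adjoin, lift_top]
    have h : Subtype.val '' {y : ↥(laurentBaseChange Ω F₀) |
        (y : LaurentSeries Ω) ∈ ⇑(coeffEmb Ω) '' (F₀ : Set (LaurentSeries ℚ))}
        = ⇑(coeffEmb Ω) '' (F₀ : Set (LaurentSeries ℚ)) := by
      ext x
      constructor
      · rintro ⟨y, hy, rfl⟩
        exact hy
      · rintro ⟨z, hz, rfl⟩
        exact ⟨⟨coeffEmb Ω z, coeffEmb_mem_laurentBaseChange Ω hz⟩, ⟨z, hz, rfl⟩, rfl⟩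
    rw [h]
    rfl

omit [Algebra ℚ Ω] [CharZero Ω] in
/-- algebraic numbers of `Ω` come from `ℚ̄`. -/
theorem mem_range_of_isAlgebraic (ι : Qb →+* Ω) {z : Ω} (hz : IsAlgebraic ℤ z) :
    z ∈ Set.range ι := by
  let _ : Algebra Qb Ω := ι.toAlgebra
  by_contra h
  have h1 : Transcendental Qb z := transcendental_of_not_mem_range (K := Qb) (F := Ω) h
  exact h1 (hz.extendScalars (Int.cast_injective (α := Qb)))

/-- a series all of whose coefficients are killed by all derivations comes from `ℚ̄((q))`. -/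
theorem exists_coeffMap_eq (ι : Qb →+* Ω) {φ : LaurentSeries Ω}
    (h : ∀ D : Derivation ℤ Ω Ω, dS D φ = 0) :
    ∃ h' : LaurentSeries Qb, coeffMap ι h' = φ := by
  have h1 : ∀ k : ℤ, φ.coeff k ∈ Set.range ι := by
    intro k
    apply mem_range_of_isAlgebraic
    by_contra hz
    obtain ⟨D, hD⟩ := exists_derivation_ne_zero (z := φ.coeff k) hz
    exact hD (((dS_eq_zero_iff D φ).mp (h D)) k)
  choose s hs using h1
  refine ⟨⟨s, φ.isPWO_support.mono ?_⟩, ?_⟩
  · intro k hk
    rw [Function.mem_support] at hk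
    rw [HahnSeries.mem_support, ← hs k]
    exact (map_ne_zero ι).mpr hk
  · ext k
    rw [coeffMap_coeff]
    exact hs k

variable [IsAlgClosed Ω] (ι : Qb →+* Ω) (M : ℕ)

/-- **(D1)** -/
theorem desc_core [IsFF1 Ω ↥(FL Ω M)] {n : ℕ} (hn : 0 < n) {h : LaurentSeries Ω}
    (hK : IsKum Ω M n h) :
    ∃ g ∈ FL Ω M, g ≠ 0 ∧ ∃ h' : LaurentSeries Qb, coeffMap ι h' = g * h := by
  obtain ⟨h0, hf, hdiv⟩ := hK
  set f : ↥(FL Ω M) := ⟨h ^ n, hf⟩ with hfdef
  have hf0 : f ≠ 0 := by
    intro hz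
    have : (f : LaurentSeries Ω) = 0 := by rw [hz]; rfl
    exact pow_ne_zero n h0 this
  obtain ⟨Pq, hPq⟩ := exists_placeQ (Ω := Ω) M
  have hJtr : Transcendental Ω (JΩ Ω M) := by
    apply transcendental_of_ord_ne_zero Pq
    rw [hPq _ (JΩ_ne_zero Ω M), order_JΩ]
    norm_num
  obtain ⟨c, hc0, hc⟩ := exists_canonical Pq hJtr hf0 hn hdiv
  have hc0' : (c : LaurentSeries Ω) ≠ 0 := fun hz => hc0 (Subtype.ext hz)
  set x : LaurentSeries Ω := (c : LaurentSeries Ω) * h with hx
  have hx0 : x ≠ 0 := mul_ne_zero hc0' h0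
  have hlc : x.coeff x.order ≠ 0 := fun hz => hx0 (HahnSeries.coeff_order_eq_zero.mp hz)
  set a : Ω := (x.coeff x.order)⁻¹ with ha
  have ha0 : a ≠ 0 := inv_ne_zero hlc
  set c' : ↥(FL Ω M) := algebraMap Ω ↥(FL Ω M) a * c with hc'
  have hc'0 : c' ≠ 0 := mul_ne_zero ((map_ne_zero _).mpr ha0) hc0
  have hc'0' : (c' : LaurentSeries Ω) ≠ 0 := fun hz => hc'0 (Subtype.ext hz)
  have hcoe : (c' : LaurentSeries Ω) = HahnSeries.C a * (c : LaurentSeries Ω) := by
    rw [hc']
    show algebraMap Ω (LaurentSeries Ω) a * (c : LaurentSeries Ω) = _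
    rw [algebraMap_laurentSeries_eq_single]
    rfl
  set φ : LaurentSeries Ω := (c' : LaurentSeries Ω) * h with hφ
  have hφx : φ = HahnSeries.C a * x := by rw [hφ, hcoe, hx, mul_assoc]
  have hφ0 : φ ≠ 0 := mul_ne_zero hc'0' h0
  have hφcoeff : ∀ k, φ.coeff k = a * x.coeff k := by
    intro k
    rw [hφx, HahnSeries.C_mul_eq_smul, HahnSeries.coeff_smul, smul_eq_mul]
  have hφord : φ.order = x.order := by
    apply le_antisymm
    · apply HahnSeries.order_le_of_coeff_ne_zero
      rw [hφcoeff]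
      exact mul_ne_zero ha0 hlc
    · apply HahnSeries.order_le_of_coeff_ne_zero
      intro hz
      have h1 : φ.coeff φ.order = 0 := by rw [hφcoeff, hz, mul_zero]
      exact hφ0 (HahnSeries.coeff_order_eq_zero.mp h1)
  have hφlead : φ.coeff φ.order = 1 := by
    rw [hφord, hφcoeff, ha, inv_mul_cancel₀ hlc]
  have hxord : x.order = (c : LaurentSeries Ω).order + h.order := HahnSeries.order_mul hc0' h0
  have key : ∀ D : Derivation ℤ Ω Ω, dS D φ = 0 := by
    intro D
    set δ := dF D (modularFunctionFieldFull M) with hδdef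
    have hδ : PlaceStable Ω δ := placeStable_dF _ D
    have hδJ : δ (JΩ Ω M) = 0 := by
      apply Subtype.ext
      rw [hδdef, coe_dF, coe_JΩ, dS_coeffEmb]
      rfl
    set N : ↥(FL Ω M) := δ c' + c' * δ f / (n * f) with hN
    have hnΩ : ((n : ℕ) : LaurentSeries Ω) ≠ 0 := by
      have : CharZero (LaurentSeries Ω) :=
        charZero_of_injective_algebraMap (algebraMap Ω (LaurentSeries Ω)).injective
      exact Nat.cast_ne_zero.mpr hn.ne'
    -- `∂ f = n h^(n-1) ∂ h`
    have hδf : ((δ f : ↥(FL Ω M)) : LaurentSeries Ω) = n * h ^ (n - 1) * dS D h := by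
      rw [hδdef, coe_dF]
      show dS D (h ^ n) = _
      rw [Derivation.leibniz_pow]
      simp only [smul_eq_mul, nsmul_eq_mul]
      ring
    have hNcoe : (N : LaurentSeries Ω) = dS D (c' : LaurentSeries Ω)
        + (c' : LaurentSeries Ω) * (n * h ^ (n - 1) * dS D h) / (n * h ^ n) := by
      rw [hN]
      have e1 : ((δ c' + c' * δ f / (n * f) : ↥(FL Ω M)) : LaurentSeries Ω)
          = ((δ c' : ↥(FL Ω M)) : LaurentSeries Ω)
            + (c' : LaurentSeries Ω) * ((δ f : ↥(FL Ω M)) : LaurentSeries Ω)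
              / ((n : LaurentSeries Ω) * (f : LaurentSeries Ω)) := by
        push_cast
        rfl
      rw [e1, hδf, hδdef, coe_dF]
    have hident : dS D φ = (N : LaurentSeries Ω) * h := by
      rw [hNcoe, hφ, Derivation.leibniz]
      simp only [smul_eq_mul]
      have hpow : h ^ n = h ^ (n - 1) * h := by
        rw [← pow_succ, Nat.sub_add_cancel hn]
      rw [hpow]
      have hh1 : h ^ (n - 1) ≠ 0 := pow_ne_zero _ h0
      field_simp
      ring
    rcases hc a ha0 δ hδ hδJ with h1 | h1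
    · rw [hident]
      have : (N : LaurentSeries Ω) = 0 := by rw [hN, h1]; rfl
      rw [this, zero_mul]
    · by_contra hne
      have hN0 : N ≠ 0 := by
        intro hz
        apply hne
        rw [hident, hz]
        simp
      have hN0' : (N : LaurentSeries Ω) ≠ 0 := fun hz => hN0 (Subtype.ext hz)
      have h2 := order_lt_order_dS D (x := φ) (by rw [hφlead]; exact D.map_one_eq_zero) hne
      rw [hident, HahnSeries.order_mul hN0' h0, hφord, hxord, ← hPq N hN0, ← hPq c hc0] at h2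
      have h3 : Pq.ord N ≤ Pq.ord c := h1
      omega
  obtain ⟨h', hh'⟩ := exists_coeffMap_eq ι key
  exact ⟨c', c'.2, hc'0', h', hh'⟩

end Fermat.Agent.GAL.DESC
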