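import Fermat.Agent.GAL.Defs

/-!
# GAL / DESC-6 : base change `k((q)) → Ω((q))` of `laurentBaseChange`, coefficientwise functionals
(linear disjointness), and `F_Ω ∩ k((q)) = F_k`.
-/

set_option autoImplicit false
set_option linter.unusedSectionVars false

open ModularCurve AlgebraicCurve

noncomputable section

namespace Fermat.Agent.GAL.DESC

variable {k Ω : Type*} [Field k] [Field Ω] [Algebra ℚ k] [Algebra ℚ Ω] (ι : k →+* Ω)
variable (F₀ : IntermediateField ℚ (LaurentSeries ℚ))

theorem coeffMap_injective : Function.Injective (coeffMap ι) := (coeffMap ι).injective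

theorem coeffMap_coeffEmb' (x : LaurentSeries ℚ) : coeffMap ι (coeffEmb k x) = coeffEmb Ω x := by
  rw [coeffEmb, coeffMap_coeffMap, coeffEmb]
  exact coeffMap_congr (RingHom.ext_rat _ _) x

theorem coeffMap_algebraMap' (a : k) :
    coeffMap ι (algebraMap k (LaurentSeries k) a) = algebraMap Ω (LaurentSeries Ω) (ι a) := by
  rw [algebraMap_laurentSeries_eq_single, algebraMap_laurentSeries_eq_single, coeffMap_single]

variable {F₀} in
theorem coeffMap_mem_laurentBaseChange' {x : LaurentSeries k} (hx : x ∈ laurentBaseChange k F₀) :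
    coeffMap ι x ∈ laurentBaseChange Ω F₀ := by
  rw [mem_laurentBaseChange_iff] at hx
  induction hx using Subfield.closure_induction with
  | mem y hy =>
      rcases hy with ⟨a, rfl⟩ | ⟨z, hz, rfl⟩
      · rw [coeffMap_algebraMap']
        exact (laurentBaseChange Ω F₀).algebraMap_mem _
      · rw [coeffMap_coeffEmb']
        exact coeffEmb_mem_laurentBaseChange Ω hz
  | one => simp
  | add x y _ _ hx hy => simpa using add_mem hx hy
  | neg x _ hx => simpa using neg_mem hx
  | inv x _ hx => simpa using inv_mem hx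
  | mul x y _ _ hx hy => simpa using mul_mem hx hy

/-- `κ : F_k → F_Ω`. -/
def kappa : ↥(laurentBaseChange k F₀) →+* ↥(laurentBaseChange Ω F₀) :=
  (((coeffMap ι).comp (laurentBaseChange k F₀).val.toRingHom).codRestrict
    (laurentBaseChange Ω F₀).toSubfield.toSubring
    (fun x => coeffMap_mem_laurentBaseChange' ι x.2))

@[simp]
theorem coe_kappa (x : ↥(laurentBaseChange k F₀)) :
    ((kappa ι F₀ x : ↥(laurentBaseChange Ω F₀)) : LaurentSeries Ω) = coeffMap ι (x : LaurentSeries k) :=
  rfl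

theorem kappa_algebraMap (a : k) :
    kappa ι F₀ (algebraMap k _ a) = algebraMap Ω _ (ι a) := by
  apply Subtype.ext
  rw [coe_kappa]
  exact coeffMap_algebraMap' ι a

/-- The coefficientwise application of an additive map `lam : Ω → k`. -/
def coeffLin (lam : Ω →+ k) : LaurentSeries Ω →+ LaurentSeries k where
  toFun x := x.map lam
  map_zero' := by ext m; simp
  map_add' x y := by ext m; simp

@[simp]
theorem coeffLin_coeff (lam : Ω →+ k) (x : LaurentSeries Ω) (m : ℤ) :
    (coeffLin lam x).coeff m = lam (x.coeff m) := rfl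

/-- `Λ` is `k((q))`-linear if `lam` is `k`-linear. -/
theorem coeffLin_mul (lam : Ω →+ k) (hlam : ∀ a b, lam (ι a * b) = a * lam b)
    (x : LaurentSeries k) (y : LaurentSeries Ω) :
    coeffLin lam (coeffMap ι x * y) = x * coeffLin lam y := by
  ext m
  have h1 : (coeffMap ι x).support ⊆ x.support := by
    intro i hi
    rw [HahnSeries.mem_support] at hi ⊢
    intro h0
    apply hi
    rw [coeffMap_coeff, h0, map_zero]
  have h2 : (coeffLin lam y).support ⊆ y.support := by
    intro i hi
    rw [HahnSeries.mem_support] at hi ⊢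
    intro h0
    apply hi
    rw [coeffLin_coeff, h0, map_zero]
  rw [coeffLin_coeff, HahnSeries.coeff_mul_left' x.isPWO_support h1,
    HahnSeries.coeff_mul_right' y.isPWO_support h2, map_sum]
  refine Finset.sum_congr rfl fun ij _ => ?_
  rw [coeffMap_coeff, hlam, coeffLin_coeff]

/-- existence of `k`-linear functionals. -/
theorem exists_lam {c : Ω} (hc : c ≠ 0) :
    ∃ lam : Ω →+ k, (∀ a b, lam (ι a * b) = a * lam b) ∧ lam c = 1 := by
  let _ : Algebra k Ω := ι.toAlgebra
  obtain ⟨φ, hφ⟩ : ∃ φ : Ω →ₗ[k] k, φ c ≠ 0 := by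
    by_contra hcon
    push Not at hcon
    exact hc ((Module.forall_dual_apply_eq_zero_iff k c).1 hcon)
  refine ⟨((φ c)⁻¹ • φ).toAddMonoidHom, fun a b => ?_, ?_⟩
  · have h1 : ι a * b = a • b := by rw [Algebra.smul_def]; rfl
    simp only [LinearMap.toAddMonoidHom_coe, LinearMap.smul_apply, smul_eq_mul, h1, map_smul]
  · simp only [LinearMap.toAddMonoidHom_coe, LinearMap.smul_apply, smul_eq_mul]
    exact inv_mul_cancel₀ hφ

theorem smul_eq_algebraMap_mul {L : Type*} [Field L] (c : L) (x : LaurentSeries L) :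
    c • x = algebraMap L (LaurentSeries L) c * x := by
  rw [algebraMap_laurentSeries_eq_single, ← HahnSeries.C_mul_eq_smul]
  rfl

theorem mul_mem_span_coeffEmb {x y : LaurentSeries Ω}
    (hx : x ∈ Submodule.span Ω (⇑(coeffEmb Ω) '' (F₀ : Set (LaurentSeries ℚ))))
    (hy : y ∈ Submodule.span Ω (⇑(coeffEmb Ω) '' (F₀ : Set (LaurentSeries ℚ)))) :
    x * y ∈ Submodule.span Ω (⇑(coeffEmb Ω) '' (F₀ : Set (LaurentSeries ℚ))) := by
  induction hx using Submodule.span_induction with
  | mem x hx =>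
    obtain ⟨a, ha, rfl⟩ := hx
    induction hy using Submodule.span_induction with
    | mem y hy =>
      obtain ⟨b, hb, rfl⟩ := hy
      exact Submodule.subset_span ⟨a * b, mul_mem ha hb, map_mul _ _ _⟩
    | zero => rw [mul_zero]; exact zero_mem _
    | add y y' _ _ hy hy' => rw [mul_add]; exact add_mem hy hy'
    | smul c y _ hy =>
      rw [smul_eq_algebraMap_mul, mul_left_comm, ← smul_eq_algebraMap_mul]
      exact Submodule.smul_mem _ c hy
  | zero => rw [zero_mul]; exact zero_mem _
  | add x x' _ _ hx hx' => rw [add_mul]; exact add_mem hx hx'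
  | smul c x _ hx =>
    rw [smul_eq_algebraMap_mul, mul_assoc, ← smul_eq_algebraMap_mul]
    exact Submodule.smul_mem _ c hx

theorem adjoin_le_span_coeffEmb {x : LaurentSeries Ω}
    (hx : x ∈ Algebra.adjoin Ω (⇑(coeffEmb Ω) '' (F₀ : Set (LaurentSeries ℚ)))) :
    x ∈ Submodule.span Ω (⇑(coeffEmb Ω) '' (F₀ : Set (LaurentSeries ℚ))) := by
  induction hx using Algebra.adjoin_induction with
  | mem x hx => exact Submodule.subset_span hx
  | algebraMap c =>
    rw [← mul_one (algebraMap Ω (LaurentSeries Ω) c), ← smul_eq_algebraMap_mul]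
    exact Submodule.smul_mem _ c (Submodule.subset_span ⟨1, one_mem _, map_one _⟩)
  | add x y _ _ hx hy => exact add_mem hx hy
  | mul x y _ _ hx hy => exact mul_mem_span_coeffEmb F₀ hx hy

/-- every element of `F_Ω` is a quotient of `Ω`-linear combinations of elements of `κ(F_k)`. -/
theorem exists_span_div {y : LaurentSeries Ω} (hy : y ∈ laurentBaseChange Ω F₀) :
    ∃ r₁ ∈ Submodule.span Ω (⇑(coeffEmb Ω) '' (F₀ : Set (LaurentSeries ℚ))),
    ∃ r₂ ∈ Submodule.span Ω (⇑(coeffEmb Ω) '' (F₀ : Set (LaurentSeries ℚ))),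
      r₂ ≠ 0 ∧ y = r₁ / r₂ := by
  obtain ⟨A, hA, B, hB, hAB⟩ := IntermediateField.mem_adjoin_iff_div.1 hy
  rcases eq_or_ne B 0 with rfl | hB0
  · refine ⟨0, zero_mem _, 1, Submodule.subset_span ⟨1, one_mem _, map_one _⟩, one_ne_zero, ?_⟩
    rw [hAB, div_zero, zero_div]
  · exact ⟨A, adjoin_le_span_coeffEmb F₀ hA, B, adjoin_le_span_coeffEmb F₀ hB, hB0, hAB⟩

theorem coeffLin_smul_coeffMap (lam : Ω →+ k) (hlam : ∀ a b, lam (ι a * b) = a * lam b)
    (a : Ω) (x : LaurentSeries k) : coeffLin lam (a • coeffMap ι x) = lam a • x := by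
  ext m
  rw [coeffLin_coeff, HahnSeries.coeff_smul, HahnSeries.coeff_smul, coeffMap_coeff, smul_eq_mul,
    smul_eq_mul, mul_comm, hlam, mul_comm]

/-- `Λ` maps the `Ω`-span of the constants into `F_k`. -/
theorem coeffLin_mem (lam : Ω →+ k) (hlam : ∀ a b, lam (ι a * b) = a * lam b)
    {r : LaurentSeries Ω}
    (hr : r ∈ Submodule.span Ω (⇑(coeffEmb Ω) '' (F₀ : Set (LaurentSeries ℚ)))) :
    coeffLin lam r ∈ laurentBaseChange k F₀ := by
  induction hr using Submodule.closure_induction with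
  | zero => rw [map_zero]; exact zero_mem _
  | add r r' _ _ hr hr' => rw [map_add]; exact add_mem hr hr'
  | smul_mem c r hr =>
    obtain ⟨f, hf, rfl⟩ := hr
    rw [← coeffMap_coeffEmb' ι, coeffLin_smul_coeffMap ι lam hlam, smul_eq_algebraMap_mul]
    exact mul_mem ((laurentBaseChange k F₀).algebraMap_mem _) (coeffEmb_mem_laurentBaseChange k hf)

/-- **(D2)** `F_Ω ∩ k((q)) = F_k`. -/
theorem mem_of_coeffMap_mem {x : LaurentSeries k} (hx : coeffMap ι x ∈ laurentBaseChange Ω F₀) :
    x ∈ laurentBaseChange k F₀ := by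
  obtain ⟨r₁, hr₁, r₂, hr₂, h0, hxr⟩ := exists_span_div F₀ hx
  obtain ⟨m, hm⟩ : ∃ m : ℤ, r₂.coeff m ≠ 0 := by
    by_contra hcon
    push Not at hcon
    exact h0 (HahnSeries.ext (funext hcon))
  obtain ⟨lam, hlam, hlam1⟩ := exists_lam ι hm
  have h1 : coeffMap ι x * r₂ = r₁ := by rw [hxr, div_mul_cancel₀ _ h0]
  have h2 := coeffLin_mul ι lam hlam x r₂
  rw [h1] at h2
  have h3 : coeffLin lam r₂ ≠ 0 := by
    intro h
    have h4 : (coeffLin lam r₂).coeff m = 1 := by rw [coeffLin_coeff, hlam1]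
    rw [h, HahnSeries.coeff_zero] at h4
    exact zero_ne_one h4
  rw [eq_div_of_mul_eq h3 h2.symm]
  exact div_mem (coeffLin_mem ι F₀ lam hlam hr₁) (coeffLin_mem ι F₀ lam hlam hr₂)

/-- linear disjointness: `k`-linearly independent families of `k((q))` stay independent. -/
theorem linearIndependent_coeffMap {I : Type*} (v : I → LaurentSeries k)
    (hv : LinearIndependent k v) : LinearIndependent Ω (fun i => coeffMap ι (v i)) := by
  rw [linearIndependent_iff']
  intro s g hg i₀ hi₀
  by_contra hne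
  obtain ⟨lam, hlam, hlam1⟩ := exists_lam ι hne
  have h1 := congrArg (coeffLin lam) hg
  rw [map_sum, map_zero] at h1
  simp only [coeffLin_smul_coeffMap ι lam hlam] at h1
  have h2 := linearIndependent_iff'.1 hv s (fun i => lam (g i)) h1 i₀ hi₀
  rw [hlam1] at h2
  exact one_ne_zero h2

end Fermat.Agent.GAL.DESC
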