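import Fermat.Agent.GAL.Defs

/-!
# GAL / DESC : `j` as an element of `FL Ω M`, its `q`-order.
-/

set_option autoImplicit false

open ModularCurve AlgebraicCurve

noncomputable section

namespace Fermat.Agent.GAL.DESC

variable (Ω : Type*) [Field Ω] [Algebra ℚ Ω] (M : ℕ)

/-- `j` as an element of `FL Ω M`. -/
def JΩ : ↥(FL Ω M) :=
  ⟨coeffEmb Ω jq, coeffEmb_mem_laurentBaseChange Ω (by
    have h := jqd_mem_full M (one_dvd M)
    rwa [qExpand_one_apply] at h)⟩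

theorem coe_JΩ : ((JΩ Ω M : ↥(FL Ω M)) : LaurentSeries Ω) = coeffEmb Ω jq := rfl

theorem coeff_JΩ_neg_one : ((JΩ Ω M : ↥(FL Ω M)) : LaurentSeries Ω).coeff (-1) = 1 := by
  rw [coe_JΩ, coeffEmb_coeff, coeff_jq_neg_one, map_one]

theorem JΩ_ne_zero : JΩ Ω M ≠ 0 := by
  intro h
  have h1 := coeff_JΩ_neg_one Ω M
  rw [h] at h1
  simp at h1

theorem order_JΩ : ((JΩ Ω M : ↥(FL Ω M)) : LaurentSeries Ω).order = -1 := by
  have hne : ((JΩ Ω M : ↥(FL Ω M)) : LaurentSeries Ω) ≠ 0 := by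
    intro h
    have h1 := coeff_JΩ_neg_one Ω M
    rw [h] at h1
    simp at h1
  apply le_antisymm
  · apply HahnSeries.order_le_of_coeff_ne_zero
    rw [coeff_JΩ_neg_one]
    exact one_ne_zero
  · by_contra hlt
    push Not at hlt
    have h1 : ((JΩ Ω M : ↥(FL Ω M)) : LaurentSeries Ω).coeff
        ((JΩ Ω M : ↥(FL Ω M)) : LaurentSeries Ω).order ≠ 0 := fun h =>
      hne (HahnSeries.coeff_order_eq_zero.mp h)
    apply h1
    rw [coe_JΩ, coeffEmb_coeff, coeff_jq_of_lt (by rw [← coe_JΩ Ω M]; exact hlt), map_zero]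

end Fermat.Agent.GAL.DESC
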