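import Fermat.Agent.GAL.DESC.JOmega
import Fermat.Agent.GAL.FF.Places

/-!
# GAL / DESC-8 : the place `P_q` of `FL Ω M` given by the `q`-order.
-/

set_option autoImplicit false

open ModularCurve AlgebraicCurve Fermat.Agent.S24.FF IntermediateField

noncomputable section

namespace Fermat.Agent.GAL.DESC

/-- the `X`-adic valuation of a nonzero Laurent series is `exp (-order)`. -/
theorem placeQ_valuation_eq {Ω : Type*} [Field Ω] (x : LaurentSeries Ω) (hx : x ≠ 0) :
    (Valued.v x : WithZero (Multiplicative ℤ)) = WithZero.exp (-x.order) := by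
  have h0 : (Valued.v x : WithZero (Multiplicative ℤ)) ≠ 0 := (Valuation.ne_zero_iff _).2 hx
  have h1 : (Valued.v x : WithZero (Multiplicative ℤ)) ≤ WithZero.exp (-x.order) :=
    (LaurentSeries.valuation_le_iff_coeff_lt_eq_zero Ω).2
      fun n hn => HahnSeries.coeff_eq_zero_of_lt_order hn
  have h2 : ¬ (Valued.v x : WithZero (Multiplicative ℤ)) ≤ WithZero.exp (-(x.order + 1)) := fun h =>
    (mt HahnSeries.coeff_order_eq_zero.1 hx)
      ((LaurentSeries.valuation_le_iff_coeff_lt_eq_zero Ω).1 h _ (by omega))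
  obtain ⟨a, ha⟩ : ∃ a : ℤ, (Valued.v x : WithZero (Multiplicative ℤ)) = WithZero.exp a :=
    ⟨WithZero.log _, (WithZero.exp_log h0).symm⟩
  rw [ha] at h1 h2 ⊢
  rw [WithZero.exp_le_exp] at h1 h2
  congr 1
  omega

variable {Ω : Type*} [Field Ω] [Algebra ℚ Ω] [CharZero Ω] (M : ℕ)

/-- **(DESC-8)** -/
theorem exists_placeQ [IsFF1 Ω ↥(FL Ω M)] :
    ∃ P : Place Ω ↥(FL Ω M), ∀ x : ↥(FL Ω M), x ≠ 0 → P.ord x = (x : LaurentSeries Ω).order := by
  let μ : Valuation ↥(FL Ω M) (WithZero (Multiplicative ℤ)) :=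
    (Valued.v : Valuation (LaurentSeries Ω) (WithZero (Multiplicative ℤ))).comap
      (algebraMap ↥(FL Ω M) (LaurentSeries Ω))
  have hμ : ∀ x : ↥(FL Ω M), x ≠ 0 → μ x = WithZero.exp (-(x : LaurentSeries Ω).order) := by
    intro x hx
    exact placeQ_valuation_eq _ (by simpa using hx)
  have hK : ∀ a : Ω, algebraMap Ω ↥(FL Ω M) a ∈ μ.valuationSubring := by
    intro a
    rw [Valuation.mem_valuationSubring_iff]
    change (Valued.v (algebraMap Ω (LaurentSeries Ω) a) : WithZero (Multiplicative ℤ)) ≤ 1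
    have h1 : (1 : WithZero (Multiplicative ℤ)) = WithZero.exp (-(0 : ℤ)) := by simp
    rw [h1, LaurentSeries.valuation_le_iff_coeff_lt_eq_zero, algebraMap_laurentSeries_eq_single]
    intro n hn
    exact HahnSeries.coeff_single_of_ne hn.ne
  have hJ : μ (JΩ Ω M) = WithZero.exp (1 : ℤ) := by
    rw [hμ _ (JΩ_ne_zero Ω M), order_JΩ]
    rfl
  have htop : μ.valuationSubring ≠ ⊤ := by
    intro h
    have h1 : JΩ Ω M ∈ μ.valuationSubring := h ▸ ValuationSubring.mem_top _
    rw [Valuation.mem_valuationSubring_iff, hJ, ← WithZero.exp_zero, WithZero.exp_le_exp] at h1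
    omega
  obtain ⟨P, hP⟩ := FF.exists_place_of_valuationSubring μ.valuationSubring hK htop
  obtain ⟨m, hm, h⟩ := exists_mul_ord_of_valuationSubring_eq P μ hP.symm
  have h1 := h (JΩ Ω M) (JΩ_ne_zero Ω M)
  rw [hJ, WithZero.log_exp] at h1
  have hm1 : m = 1 := by
    have h2 : m ∣ 1 := ⟨-P.ord (JΩ Ω M), by linarith⟩
    exact Int.eq_one_of_dvd_one hm.le h2
  refine ⟨P, fun x hx => ?_⟩
  have h3 := h x hx
  rw [hμ x hx, WithZero.log_exp, hm1] at h3
  linarith

end Fermat.Agent.GAL.DESC
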