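import Mathlib

/-!
# GAL / DESC-3 : Seidenberg's lemma (almost integral form)

`R ⊆ K` a subring stable under a derivation `δ`, containing `ℚ`; if `d yⁱ ∈ R` for all `i`
then `d² (δ y)ᵏ ∈ R` for all `k`.
-/

set_option autoImplicit false

namespace Fermat.Agent.GAL.DESC

theorem ad_iterate_mul {A : Type*} [Ring A] (Dl Y m : A) (h1 : Dl * Y - Y * Dl = m)
    (h2 : m * Y = Y * m) (j : ℕ) (L : A) :
    (fun L : A => L * Y - Y * L)^[j + 1] (Dl * L)
      = Dl * (fun L : A => L * Y - Y * L)^[j + 1] L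
        + ((j + 1 : ℕ) : A) * (m * (fun L : A => L * Y - Y * L)^[j] L) := by
  induction j with
  | zero =>
    simp only [Function.iterate_succ, Function.iterate_zero, Function.comp, id]
    rw [← h1]
    simp only [zero_add, Nat.cast_one, one_mul]
    noncomm_ring
  | succ j ih =>
    rw [Function.iterate_succ_apply', ih]
    set X := (fun L : A => L * Y - Y * L)^[j] L with hX
    have hX1 : (fun L : A => L * Y - Y * L)^[j + 1] L = X * Y - Y * X := by
      rw [Function.iterate_succ_apply']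
    have hX2 : (fun L : A => L * Y - Y * L)^[j + 1 + 1] L
        = (X * Y - Y * X) * Y - Y * (X * Y - Y * X) := by
      rw [Function.iterate_succ_apply', hX1]
    rw [hX1, hX2]
    have hc : ∀ Z : A, ((j + 1 : ℕ) : A) * Z * Y = ((j + 1 : ℕ) : A) * (Z * Y) := fun Z =>
      mul_assoc _ _ _
    have hc2 : ∀ Z : A, Y * (((j + 1 : ℕ) : A) * Z) = ((j + 1 : ℕ) : A) * (Y * Z) := fun Z => by
      rw [← mul_assoc, ← mul_assoc, (Nat.cast_commute (j + 1) Y).eq]
    show (Dl * (X * Y - Y * X) + ((j + 1 : ℕ) : A) * (m * X)) * Y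
        - Y * (Dl * (X * Y - Y * X) + ((j + 1 : ℕ) : A) * (m * X)) = _
    rw [add_mul, mul_add, hc, hc2]
    have e1 : m * X * Y - Y * (m * X) = m * (X * Y - Y * X) := by
      rw [← mul_assoc Y m X, ← h2]; noncomm_ring
    have e2 : Dl * (X * Y - Y * X) * Y - Y * (Dl * (X * Y - Y * X))
        = Dl * ((X * Y - Y * X) * Y - Y * (X * Y - Y * X)) + m * (X * Y - Y * X) := by
      rw [← h1]; noncomm_ring
    have e3 : Dl * (X * Y - Y * X) * Y + ((j + 1 : ℕ) : A) * (m * X * Y)
        - (Y * (Dl * (X * Y - Y * X)) + ((j + 1 : ℕ) : A) * (Y * (m * X)))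
        = (Dl * (X * Y - Y * X) * Y - Y * (Dl * (X * Y - Y * X)))
          + ((j + 1 : ℕ) : A) * (m * X * Y - Y * (m * X)) := by
      rw [mul_sub ((j + 1 : ℕ) : A)]; abel
    rw [e3, e1, e2]
    push_cast
    noncomm_ring

theorem ad_iterate_pow_aux {A : Type*} [Ring A] (Dl Y m : A) (h1 : Dl * Y - Y * Dl = m)
    (h2 : m * Y = Y * m) (k : ℕ) :
    (fun L : A => L * Y - Y * L)^[k] (Dl ^ k) = (k.factorial : A) * m ^ k ∧
    (fun L : A => L * Y - Y * L)^[k + 1] (Dl ^ k) = 0 := by
  induction k with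
  | zero => simp
  | succ k ih =>
    obtain ⟨ih1, ih2⟩ := ih
    constructor
    · rw [pow_succ' Dl, ad_iterate_mul Dl Y m h1 h2, ih1, ih2, mul_zero, zero_add,
        Nat.factorial_succ, pow_succ' m]
      push_cast
      rw [← mul_assoc m, ← (Nat.cast_commute k.factorial m).eq]
      noncomm_ring
    · rw [pow_succ' Dl, ad_iterate_mul Dl Y m h1 h2, ih2, Function.iterate_succ_apply', ih2]
      simp

/-- In a ring: if `[D,Y] = m` commutes with `Y` then `ad_Y^k (D^k) = k! m^k`. -/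
theorem ad_iterate_pow {A : Type*} [Ring A] (Dl Y m : A) (h1 : Dl * Y - Y * Dl = m)
    (h2 : m * Y = Y * m) (k : ℕ) :
    (fun L : A => L * Y - Y * L)^[k] (Dl ^ k) = (k.factorial : A) * m ^ k :=
  (ad_iterate_pow_aux Dl Y m h1 h2 k).1

/-- **(DESC-3)** Seidenberg. -/
theorem seidenberg_pow_mem {K : Type*} [Field K] [CharZero K] (δ : Derivation ℤ K K) (R : Subring K)
    (hQ : ∀ n : ℕ, n ≠ 0 → ((n : K))⁻¹ ∈ R) (hδ : ∀ x ∈ R, δ x ∈ R) (y d : K)
    (hd : ∀ i : ℕ, d * y ^ i ∈ R) (k : ℕ) : d ^ 2 * (δ y) ^ k ∈ R := by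
  -- the conductor-like sets
  let S : Set K := {x | ∀ i : ℕ, x * y ^ i ∈ R}
  let U : Set K := {u | ∀ s ∈ S, s * u ∈ R}
  have hSR : ∀ x ∈ S, x ∈ R := fun x hx => by simpa using hx 0
  have hSy : ∀ x ∈ S, y * x ∈ S := fun x hx i => by
    have := hx (i + 1)
    rw [pow_succ'] at this
    convert this using 1; ring
  have hRU : ∀ r ∈ R, r ∈ U := fun r hr s hs => R.mul_mem (hSR s hs) hr
  have hUy : ∀ u ∈ U, y * u ∈ U := fun u hu s hs => by
    have := hu (y * s) (hSy s hs)
    convert this using 1; ring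
  have hUsub : ∀ u ∈ U, ∀ v ∈ U, u - v ∈ U := fun u hu v hv s hs => by
    rw [mul_sub]; exact R.sub_mem (hu s hs) (hv s hs)
  let Dl : Module.End ℤ K := (δ : K →ₗ[ℤ] K)
  let Y : Module.End ℤ K := LinearMap.mulLeft ℤ y
  let m : Module.End ℤ K := LinearMap.mulLeft ℤ (δ y)
  have h1 : Dl * Y - Y * Dl = m := by
    ext x
    simp only [Dl, Y, m, LinearMap.sub_apply, Module.End.mul_apply, LinearMap.mulLeft_apply,
      Derivation.coeFn_coe, Derivation.leibniz, smul_eq_mul]
    ring
  have h2 : m * Y = Y * m := by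
    ext x
    simp only [Y, m, Module.End.mul_apply, LinearMap.mulLeft_apply]
    ring
  have hgood0 : ∀ j : ℕ, ∀ x ∈ R, (Dl ^ j) x ∈ R := by
    intro j
    induction j with
    | zero => intro x hx; simpa using hx
    | succ j ih =>
      intro x hx
      rw [pow_succ', Module.End.mul_apply]
      exact hδ _ (ih x hx)
  have hgood : ∀ (j : ℕ) (L : Module.End ℤ K), (∀ x ∈ S, L x ∈ U) →
      ∀ x ∈ S, ((fun L : Module.End ℤ K => L * Y - Y * L)^[j] L) x ∈ U := by
    intro j
    induction j with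
    | zero => intro L hL x hx; simpa using hL x hx
    | succ j ih =>
      intro L hL x hx
      rw [Function.iterate_succ_apply']
      simp only [LinearMap.sub_apply, Module.End.mul_apply]
      refine hUsub _ (ih L hL _ ?_) _ ?_
      · exact hSy x hx
      · exact hUy _ (ih L hL x hx)
  have hdS : d ∈ S := hd
  have key := hgood k (Dl ^ k) (fun x hx => hRU _ (hgood0 k x (hSR x hx))) d hdS
  rw [ad_iterate_pow Dl Y m h1 h2 k] at key
  have key2 := key d hdS
  have e : ((k.factorial : Module.End ℤ K) * m ^ k) d = (k.factorial : K) * ((δ y) ^ k * d) := by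
    simp only [m, LinearMap.pow_mulLeft, Module.End.mul_apply, LinearMap.mulLeft_apply]
    rw [Module.End.natCast_apply]
    simp
  rw [e] at key2
  have h3 := R.mul_mem (hQ k.factorial (Nat.factorial_ne_zero k)) key2
  have hk : (k.factorial : K) ≠ 0 := Nat.cast_ne_zero.mpr (Nat.factorial_ne_zero k)
  convert h3 using 1
  field_simp

end Fermat.Agent.GAL.DESC
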